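import Mathlib
import Fermat.Prelude.Def_AlgebraicCurve_Repartitions

/-!
# S26 / P14 (C1): order calculus at a place and weak approximation (helper9503)

Char-free, any constant field.  Vocabulary: the Prelude's `AlgebraicCurve.Place K F`.
-/

set_option autoImplicit false

namespace Fermat.Agent.S26.FF

open AlgebraicCurve WithZero

variable {K F : Type*} [Field K] [Field F] [Algebra K F]

section basics

variable (v : Place K F)

theorem mem_of_ord_nonneg {f : F} (h : 0 ≤ v.ord f) : f ∈ v.toValuationSubring := by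
  rcases eq_or_ne f 0 with rfl | hf
  · exact zero_mem _
  obtain ⟨π, hπ⟩ := IsDiscreteValuationRing.exists_irreducible v.toValuationSubring
  obtain ⟨u, hu⟩ := v.exists_unit_mul_zpow hf hπ
  rw [hu]
  obtain ⟨n, hn⟩ := Int.eq_ofNat_of_zero_le h
  rw [hn, zpow_natCast]
  exact mul_mem (u : v.toValuationSubring).2 (pow_mem π.2 n)

theorem ord_nonneg_of_mem {f : F} (h : f ∈ v.toValuationSubring) : 0 ≤ v.ord f := by
  rcases eq_or_ne f 0 with rfl | hf
  · simp
  have := (v.adicValuation_le_one_iff (f := f)).mp (v.adicValuation_le_one_of_mem h)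
  exact this.resolve_left hf

theorem mem_iff_ord_nonneg {f : F} : f ∈ v.toValuationSubring ↔ 0 ≤ v.ord f :=
  ⟨ord_nonneg_of_mem v, mem_of_ord_nonneg v⟩

theorem ord_add_ge {f g : F} (hfg : f + g ≠ 0) :
    min (v.ord f) (v.ord g) ≤ v.ord (f + g) := by
  rcases eq_or_ne f 0 with rfl | hf
  · simp
  rcases eq_or_ne g 0 with rfl | hg
  · simp
  have h := Valuation.map_add v.adicValuation f g
  rw [v.adicValuation_eq_exp_neg_ord hfg, v.adicValuation_eq_exp_neg_ord hf,
    v.adicValuation_eq_exp_neg_ord hg] at h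
  rcases le_max_iff.mp h with h | h
  · rw [WithZero.exp_le_exp] at h
    exact (min_le_left _ _).trans (by omega)
  · rw [WithZero.exp_le_exp] at h
    exact (min_le_right _ _).trans (by omega)

theorem ord_algebraMap (c : K) : v.ord (algebraMap K F c) = 0 := by
  rcases eq_or_ne c 0 with rfl | hc
  · simp
  have h1 := ord_nonneg_of_mem v (v.algebraMap_mem' c)
  have h2 := ord_nonneg_of_mem v (v.algebraMap_mem' c⁻¹)
  rw [map_inv₀, v.ord_inv] at h2
  omega

theorem ord_neg (f : F) : v.ord (-f) = v.ord f := by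
  rcases eq_or_ne f 0 with rfl | hf
  · simp
  have h : -f = (-1 : F) * f := by ring
  have h1 : v.ord (-1 : F) = 0 := by
    have := ord_algebraMap v (-1 : K)
    simpa using this
  rw [h, v.ord_mul (by norm_num) hf, h1, zero_add]

theorem ord_sub_ge {f g : F} (hfg : f - g ≠ 0) :
    min (v.ord f) (v.ord g) ≤ v.ord (f - g) := by
  have := ord_add_ge v (f := f) (g := -g) (by rwa [← sub_eq_add_neg])
  rwa [ord_neg, ← sub_eq_add_neg] at this

theorem ord_add_eq_of_lt {f g : F} (hf : f ≠ 0) (h : v.ord f < v.ord g) :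
    f + g ≠ 0 ∧ v.ord (f + g) = v.ord f := by
  rcases eq_or_ne g 0 with rfl | hg
  · simp [hf]
  have hne : f + g ≠ 0 := by
    intro h0
    have : g = -f := by linear_combination h0
    rw [this, ord_neg] at h
    exact lt_irrefl _ h
  refine ⟨hne, le_antisymm ?_ ?_⟩
  · by_contra hlt
    rw [not_le] at hlt
    have h2 : min (v.ord (f + g)) (v.ord g) ≤ v.ord ((f + g) - g) :=
      ord_sub_ge v (by simpa using hf)
    rw [add_sub_cancel_right] at h2
    have : v.ord f < min (v.ord (f + g)) (v.ord g) := lt_min hlt h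
    omega
  · have := ord_add_ge v hne
    rwa [min_eq_left h.le] at this

theorem ord_pow (f : F) (n : ℕ) : v.ord (f ^ n) = n * v.ord f := by
  have := v.ord_zpow f n
  simpa using this

theorem exists_uniformizer : ∃ t : F, v.ord t = 1 := by
  obtain ⟨π, hπ⟩ := IsDiscreteValuationRing.exists_irreducible v.toValuationSubring
  exact ⟨π, v.ord_coe_irreducible hπ⟩

theorem ne_zero_of_ord_ne_zero {f : F} (h : v.ord f ≠ 0) : f ≠ 0 := by
  rintro rfl
  simp at h

theorem exists_ord_eq (n : ℤ) : ∃ t : F, t ≠ 0 ∧ v.ord t = n := by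
  obtain ⟨t, ht⟩ := exists_uniformizer v
  have ht0 : t ≠ 0 := ne_zero_of_ord_ne_zero v (by rw [ht]; norm_num)
  exact ⟨t ^ n, zpow_ne_zero n ht0, by rw [v.ord_zpow, ht, mul_one]⟩

end basics

/-! ### The real absolute value of a place and weak approximation -/

open Classical in
/-- The real absolute value `|f|_v = 2^(-ord_v f)`. -/
noncomputable def absV (v : Place K F) : AbsoluteValue F ℝ where
  toFun f := if f = 0 then 0 else (2 : ℝ) ^ (-(v.ord f))
  map_mul' f g := by
    by_cases hf : f = 0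
    · simp [hf]
    by_cases hg : g = 0
    · simp [hg]
    simp only [hf, hg, mul_eq_zero, or_self, if_false]
    rw [v.ord_mul hf hg, neg_add, zpow_add₀ (two_ne_zero)]
  nonneg' f := by
    split_ifs
    · exact le_rfl
    · positivity
  eq_zero' f := by
    constructor
    · intro h
      by_contra hf
      rw [if_neg hf] at h
      have : (0 : ℝ) < (2 : ℝ) ^ (-(v.ord f)) := by positivity
      exact this.ne' h
    · intro h
      simp [h]
  add_le' f g := by
    by_cases hf : f = 0
    · simp [hf]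
    by_cases hg : g = 0
    · simp [hg]
    by_cases hfg : f + g = 0
    · simp only [hfg, hf, hg, if_true, if_false]
      positivity
    simp only [hfg, hf, hg, if_false]
    have h := ord_add_ge v hfg
    have h2 : (1 : ℝ) ≤ 2 := one_le_two
    rcases min_le_iff.mp h with h | h
    · have : (2 : ℝ) ^ (-(v.ord (f + g))) ≤ (2 : ℝ) ^ (-(v.ord f)) :=
        zpow_le_zpow_right₀ h2 (by omega)
      have : (0 : ℝ) < (2 : ℝ) ^ (-(v.ord g)) := by positivity
      linarith
    · have : (2 : ℝ) ^ (-(v.ord (f + g))) ≤ (2 : ℝ) ^ (-(v.ord g)) :=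
        zpow_le_zpow_right₀ h2 (by omega)
      have : (0 : ℝ) < (2 : ℝ) ^ (-(v.ord f)) := by positivity
      linarith

open Classical in
theorem absV_apply (v : Place K F) {f : F} (hf : f ≠ 0) :
    absV v f = (2 : ℝ) ^ (-(v.ord f)) := by
  show (if f = 0 then 0 else (2 : ℝ) ^ (-(v.ord f))) = _
  rw [if_neg hf]

theorem absV_lt_iff (v : Place K F) {f : F} (hf : f ≠ 0) (n : ℤ) :
    absV v f < (2 : ℝ) ^ (-n) ↔ n < v.ord f := by
  rw [absV_apply v hf, zpow_lt_zpow_iff_right₀ (by norm_num : (1 : ℝ) < 2)]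
  omega

theorem absV_lt_one_iff (v : Place K F) {f : F} (hf : f ≠ 0) :
    absV v f < 1 ↔ 0 < v.ord f := by
  have := absV_lt_iff v hf 0
  simpa using this

theorem absV_isNontrivial (v : Place K F) : (absV v).IsNontrivial := by
  obtain ⟨t, ht⟩ := exists_uniformizer v
  have ht0 : t ≠ 0 := ne_zero_of_ord_ne_zero v (by rw [ht]; norm_num)
  refine ⟨t, ht0, ?_⟩
  have : absV v t < 1 := (absV_lt_one_iff v ht0).mpr (by rw [ht]; norm_num)
  exact this.ne

theorem absV_not_isEquiv {v w : Place K F} (h : v ≠ w) : ¬ (absV v).IsEquiv (absV w) := by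
  intro he
  apply h
  have key : ∀ x : F, x ≠ 0 → (0 < v.ord x ↔ 0 < w.ord x) := by
    intro x hx
    rw [← absV_lt_one_iff v hx, ← absV_lt_one_iff w hx]
    exact AbsoluteValue.isEquiv_iff_lt_one_iff.mp he x
  apply Place.ext
  ext x
  rcases eq_or_ne x 0 with rfl | hx
  · simp
  rw [mem_iff_ord_nonneg v, mem_iff_ord_nonneg w]
  have hk := key x⁻¹ (inv_ne_zero hx)
  rw [v.ord_inv, w.ord_inv] at hk
  constructor
  · intro h1
    by_contra h2
    have : 0 < -w.ord x := by omega
    have := hk.mpr this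
    omega
  · intro h1
    by_contra h2
    have : 0 < -v.ord x := by omega
    have := hk.mp this
    omega

/-- **Weak approximation**, inequality form: simultaneous approximation of `y i` at finitely many
distinct places to any prescribed order. -/
theorem exists_approx {ι : Type*} [Finite ι] (v : ι → Place K F) (hv : Function.Injective v)
    (y : ι → F) (N : ℤ) :
    ∃ z : F, ∀ i, z = y i ∨ N < (v i).ord (z - y i) := by
  have := Fintype.ofFinite ι
  have hne : ∀ i, (absV (v i)).IsNontrivial := fun i => absV_isNontrivial (v i)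
  have hpw : Pairwise fun i j => ¬ (absV (v i)).IsEquiv (absV (v j)) := by
    intro i j hij
    exact absV_not_isEquiv (fun h => hij (hv h))
  have hd := AbsoluteValue.denseRange_algebraMap_pi hne hpw
  have hr : (0 : ℝ) < (2 : ℝ) ^ (-N) := by positivity
  obtain ⟨z, hz⟩ := Metric.denseRange_iff.mp hd (fun i => WithAbs.toAbs (absV (v i)) (y i)) _ hr
  refine ⟨z, fun i => ?_⟩
  by_cases hzy : z = y i
  · exact Or.inl hzy
  right
  have hzy' : z - y i ≠ 0 := sub_ne_zero.mpr hzy
  rw [dist_pi_lt_iff hr] at hz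
  have h1 := hz i
  rw [dist_comm, dist_eq_norm] at h1
  have h2 : ‖(algebraMap F ((i : ι) → WithAbs (absV (v i))) z) i -
      WithAbs.toAbs (absV (v i)) (y i)‖ = absV (v i) (z - y i) := rfl
  rw [h2] at h1
  exact (absV_lt_iff (v i) hzy' N).mp h1

/-- **Weak approximation**, exact-order form (Stichtenoth 1.3.1). -/
theorem exists_approx_ord {ι : Type*} [Finite ι] (v : ι → Place K F) (hv : Function.Injective v)
    (x : ι → F) (r : ι → ℤ) :
    ∃ z : F, ∀ i, z - x i ≠ 0 ∧ (v i).ord (z - x i) = r i := by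
  obtain ⟨N, hN⟩ : ∃ N : ℤ, ∀ i, r i ≤ N := by
    have := Fintype.ofFinite ι
    obtain ⟨N, hN⟩ := (Set.finite_range r).bddAbove
    exact ⟨N, fun i => hN (Set.mem_range_self i)⟩
  choose t ht0 ht using fun i => exists_ord_eq (v i) (r i)
  obtain ⟨z₁, hz₁⟩ := exists_approx v hv x N
  obtain ⟨z₂, hz₂⟩ := exists_approx v hv t N
  have h2 : ∀ i, z₂ ≠ 0 ∧ (v i).ord z₂ = r i := by
    intro i
    rcases hz₂ i with h | h
    · rw [h]; exact ⟨ht0 i, ht i⟩
    · have := ord_add_eq_of_lt (v i) (f := t i) (g := z₂ - t i) (ht0 i)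
        (by rw [ht i]; exact lt_of_le_of_lt (hN i) h)
      rw [add_sub_cancel] at this
      exact ⟨this.1, this.2.trans (ht i)⟩
  refine ⟨z₁ + z₂, fun i => ?_⟩
  rcases hz₁ i with h | h
  · rw [h, add_sub_cancel_left]
    exact h2 i
  · have := ord_add_eq_of_lt (v i) (f := z₂) (g := z₁ - x i) (h2 i).1
      (by rw [(h2 i).2]; exact lt_of_le_of_lt (hN i) h)
    have e : z₁ + z₂ - x i = z₂ + (z₁ - x i) := by ring
    rw [e]
    exact ⟨this.1, this.2.trans (h2 i).2⟩

end Fermat.Agent.S26.FF
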