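import Mathlib
import Fermat.Agent.S26.FF.Val

/-!
# S26 / CURVE (C1b): `K[x]`-linear independence in a function field (helper9503)

`PolyIndep K x y` : the finite family `y` of elements of `F` is linearly independent over the
polynomial ring `K[x]` (equivalently, over the field `K(x)` when `x` is transcendental).
`DegBound K x N` : every `K[x]`-independent family has at most `N` members, i.e. `[F : K(x)] ≤ N`.
`degX K x` : the largest size of a `K[x]`-independent family (`= [F : K(x)]`).
`IsFF1 K F` : `F/K` is a function field in one variable (there is a transcendental element and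
`[F : K(x)] < ∞` for every transcendental `x`).

Main tool (`exists_rel_coeff_zero_ne`): a nontrivial relation can be normalised so that some
coefficient polynomial has a nonzero constant term.
-/

set_option autoImplicit false

namespace Fermat.Agent.S26.FF

open AlgebraicCurve Polynomial

variable (K : Type*) {F : Type*} [Field K] [Field F] [Algebra K F]

/-- The finite family `y` is linearly independent over `K[x]`. -/
def PolyIndep (x : F) {ι : Type*} [Fintype ι] (y : ι → F) : Prop :=
  ∀ φ : ι → K[X], ∑ i, aeval x (φ i) * y i = 0 → ∀ i, φ i = 0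

/-- Every `K[x]`-independent family has at most `N` members. -/
def DegBound (x : F) (N : ℕ) : Prop :=
  ∀ (m : ℕ) (y : Fin m → F), PolyIndep K x y → m ≤ N

/-- The largest size of a `K[x]`-independent family (meaningful when some `DegBound` holds). -/
noncomputable def degX (x : F) : ℕ := sSup {m : ℕ | ∃ y : Fin m → F, PolyIndep K x y}

variable {K}

theorem aeval_eq_divX (x : F) (p : K[X]) :
    aeval x p = x * aeval x p.divX + algebraMap K F (p.coeff 0) := by
  have h := congrArg (aeval x) (divX_mul_X_add p)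
  simp only [map_add, map_mul, aeval_X, aeval_C] at h
  rw [← h, mul_comm]

theorem PolyIndep.reindex {x : F} {ι κ : Type*} [Fintype ι] [Fintype κ] {y : ι → F}
    (h : PolyIndep K x y) (e : κ ≃ ι) : PolyIndep K x (y ∘ e) := by
  intro φ hφ i
  have h1 : ∑ j, aeval x (φ (e.symm j)) * y j = 0 := by
    rw [← hφ]
    exact (Fintype.sum_equiv e _ _ (fun k => by simp)).symm
  have := h (fun j => φ (e.symm j)) h1 (e i)
  simpa using this

theorem DegBound.card_le {x : F} {N : ℕ} (h : DegBound K x N) {ι : Type*} [Fintype ι]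
    {y : ι → F} (hy : PolyIndep K x y) : Fintype.card ι ≤ N :=
  h _ _ (hy.reindex (Fintype.equivFin ι).symm)

theorem DegBound.mono {x : F} {N M : ℕ} (h : DegBound K x N) (hNM : N ≤ M) : DegBound K x M :=
  fun m y hy => (h m y hy).trans hNM

/-- **Normalisation of relations.** -/
theorem exists_rel_coeff_zero_ne {x : F} (hx : x ≠ 0) {ι : Type*} [Fintype ι] {y : ι → F}
    (h : ¬ PolyIndep K x y) :
    ∃ ψ : ι → K[X], ∑ i, aeval x (ψ i) * y i = 0 ∧ ∃ i, (ψ i).coeff 0 ≠ 0 := by
  unfold PolyIndep at h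
  push Not at h
  obtain ⟨φ, hφ, i₀, hi₀⟩ := h
  suffices H : ∀ n : ℕ, ∀ φ : ι → K[X], ∑ i, aeval x (φ i) * y i = 0 → φ i₀ ≠ 0 →
      (φ i₀).natDegree ≤ n →
      ∃ ψ : ι → K[X], ∑ i, aeval x (ψ i) * y i = 0 ∧ ∃ i, (ψ i).coeff 0 ≠ 0 from
    H _ φ hφ hi₀ le_rfl
  intro n
  induction n with
  | zero =>
    intro φ hφ hi₀ hdeg
    refine ⟨φ, hφ, i₀, ?_⟩
    intro h0
    apply hi₀
    have h1 := eq_C_of_natDegree_le_zero hdeg
    rw [h1, h0, map_zero]
  | succ n ih =>
    intro φ hφ hi₀ hdeg
    by_cases hall : ∃ i, (φ i).coeff 0 ≠ 0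
    · exact ⟨φ, hφ, hall⟩
    push Not at hall
    have hrel : ∑ i, aeval x ((φ i).divX) * y i = 0 := by
      have h1 : x * ∑ i, aeval x ((φ i).divX) * y i = 0 := by
        rw [← hφ, Finset.mul_sum]
        refine Finset.sum_congr rfl fun i _ => ?_
        rw [aeval_eq_divX x (φ i), hall i]
        simp [mul_assoc]
      exact (mul_eq_zero.mp h1).resolve_left hx
    refine ih (fun i => (φ i).divX) hrel ?_ ?_
    · intro h0
      apply hi₀
      rw [divX_eq_zero_iff.mp h0, hall i₀]
      simp
    · rw [natDegree_divX_eq_natDegree_tsub_one]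
      omega

/-- Independence over `K[x]` and over `K[x⁻¹]` agree. -/
theorem PolyIndep.of_inv {x : F} (hx : x ≠ 0) {ι : Type*} [Fintype ι] {y : ι → F}
    (h : PolyIndep K x⁻¹ y) : PolyIndep K x y := by
  intro φ hφ
  set d := Finset.univ.sup (fun i => (φ i).natDegree) with hd
  have hdeg : ∀ i, (φ i).natDegree ≤ d := fun i => Finset.le_sup (f := fun i => (φ i).natDegree)
    (Finset.mem_univ i)
  let _ : Invertible x := invertibleOfNonzero hx
  have key : ∀ i, aeval x⁻¹ (reflect d (φ i)) * x ^ d = aeval x (φ i) := by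
    intro i
    have := eval₂_reflect_mul_pow (algebraMap K F) x d (φ i) (hdeg i)
    simpa [aeval_def] using this
  have hrel : ∑ i, aeval x⁻¹ (reflect d (φ i)) * y i = 0 := by
    have h1 : x ^ d * ∑ i, aeval x⁻¹ (reflect d (φ i)) * y i = 0 := by
      rw [← hφ, Finset.mul_sum]
      refine Finset.sum_congr rfl fun i _ => ?_
      rw [← key i]
      ring
    exact (mul_eq_zero.mp h1).resolve_left (pow_ne_zero _ hx)
  intro i
  have := h (fun i => reflect d (φ i)) hrel i
  simpa using this

theorem polyIndep_inv_iff {x : F} (hx : x ≠ 0) {ι : Type*} [Fintype ι] {y : ι → F} :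
    PolyIndep K x⁻¹ y ↔ PolyIndep K x y :=
  ⟨fun h => h.of_inv hx, fun h => by
    have h' : PolyIndep K (x⁻¹)⁻¹ y := by rwa [inv_inv]
    exact h'.of_inv (inv_ne_zero hx)⟩

theorem degBound_inv_iff {x : F} (hx : x ≠ 0) {N : ℕ} : DegBound K x⁻¹ N ↔ DegBound K x N :=
  ⟨fun h m y hy => h m y ((polyIndep_inv_iff hx).mpr hy),
    fun h m y hy => h m y ((polyIndep_inv_iff hx).mp hy)⟩

theorem degX_inv {x : F} (hx : x ≠ 0) : degX K x⁻¹ = degX K x := by
  unfold degX
  congr 1
  ext m
  simp only [Set.mem_ofPred_eq]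
  exact exists_congr fun y => polyIndep_inv_iff hx

theorem polyIndep_empty (x : F) {ι : Type*} [Fintype ι] [IsEmpty ι] (y : ι → F) :
    PolyIndep K x y := fun _ _ i => isEmptyElim i

theorem DegBound.bddAbove {x : F} {N : ℕ} (h : DegBound K x N) :
    BddAbove {m : ℕ | ∃ y : Fin m → F, PolyIndep K x y} :=
  ⟨N, fun _ ⟨y, hy⟩ => h _ y hy⟩

theorem DegBound.exists_polyIndep_degX {x : F} {N : ℕ} (h : DegBound K x N) :
    ∃ y : Fin (degX K x) → F, PolyIndep K x y :=
  Nat.sSup_mem (s := {m : ℕ | ∃ y : Fin m → F, PolyIndep K x y})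
    ⟨0, ⟨fun i => i.elim0, polyIndep_empty x _⟩⟩ h.bddAbove

theorem DegBound.degX_le {x : F} {N : ℕ} (h : DegBound K x N) : degX K x ≤ N :=
  csSup_le ⟨0, ⟨fun i => i.elim0, polyIndep_empty x _⟩⟩ fun _ ⟨y, hy⟩ => h _ y hy

theorem DegBound.degBound_degX {x : F} {N : ℕ} (h : DegBound K x N) :
    DegBound K x (degX K x) :=
  fun m y hy => le_csSup h.bddAbove ⟨y, hy⟩

/-- `x` is transcendental over `K` iff the one-element family `1` is `K[x]`-independent. -/
theorem transcendental_iff_polyIndep_one {x : F} :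
    Transcendental K x ↔ PolyIndep K x (fun _ : Unit => (1 : F)) := by
  rw [transcendental_iff]
  constructor
  · intro h φ hφ i
    have h1 : aeval x (φ ()) = 0 := by simpa using hφ
    exact h _ h1
  · intro h p hp
    exact h (fun _ => p) (by simp [hp]) ()

/-- a nonzero algebraic element satisfies a polynomial with nonzero constant term -/
theorem exists_aeval_eq_zero_coeff_zero_ne {x : F} (hx : x ≠ 0) (h : IsAlgebraic K x) :
    ∃ p : K[X], aeval x p = 0 ∧ p.coeff 0 ≠ 0 := by
  have h' : ¬ PolyIndep K x (fun _ : Unit => (1 : F)) := by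
    rw [← transcendental_iff_polyIndep_one]
    exact fun ht => ht h
  obtain ⟨ψ, hψ, i, hi⟩ := exists_rel_coeff_zero_ne hx h'
  exact ⟨ψ (), by simpa using hψ, by cases i; exact hi⟩

section valuation

variable {Γ₀ : Type*} [LinearOrderedCommGroupWithZero Γ₀] (w : Valuation F Γ₀)

theorem val_aeval_le_one (hK : ∀ c : K, w (algebraMap K F c) ≤ 1) {x : F} (hx : w x ≤ 1)
    (p : K[X]) : w (aeval x p) ≤ 1 := by
  rw [aeval_eq_sum_range]
  refine w.map_sum_le fun i _ => ?_
  rw [Algebra.smul_def, map_mul, map_pow]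
  exact mul_le_one' (hK _) (pow_le_one' hx i)

theorem val_aeval_sub_coeff_zero_le (hK : ∀ c : K, w (algebraMap K F c) ≤ 1) {x : F}
    (hx : w x ≤ 1) (p : K[X]) : w (aeval x p - algebraMap K F (p.coeff 0)) ≤ w x := by
  rw [aeval_eq_divX x p, add_sub_cancel_right, map_mul]
  exact mul_le_of_le_one_right' (val_aeval_le_one w hK hx _)

theorem val_aeval_le_of_coeff_zero (hK : ∀ c : K, w (algebraMap K F c) ≤ 1) {x : F}
    (hx : w x ≤ 1) {p : K[X]} (hp : p.coeff 0 = 0) : w (aeval x p) ≤ w x := by
  have := val_aeval_sub_coeff_zero_le w hK hx p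
  rwa [hp, map_zero, sub_zero] at this

theorem val_algebraMap_eq_one (hK : ∀ c : K, w (algebraMap K F c) ≤ 1) {c : K} (hc : c ≠ 0) :
    w (algebraMap K F c) = 1 := by
  refine le_antisymm (hK c) ?_
  have h1 := hK c⁻¹
  have h2 : w (algebraMap K F c) * w (algebraMap K F c⁻¹) = 1 := by
    rw [← map_mul, ← map_mul, mul_inv_cancel₀ hc, map_one, map_one]
  by_contra hlt
  push Not at hlt
  have h3 : w (algebraMap K F c) * w (algebraMap K F c⁻¹) < 1 :=
    mul_lt_one_of_lt_of_le hlt h1
  exact absurd h2 (ne_of_lt h3)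

theorem val_aeval_eq_one (hK : ∀ c : K, w (algebraMap K F c) ≤ 1) {x : F}
    (hx : w x < 1) {p : K[X]} (hp : p.coeff 0 ≠ 0) : w (aeval x p) = 1 := by
  have h1 := val_aeval_sub_coeff_zero_le w hK hx.le p
  have h2 : w (algebraMap K F (p.coeff 0)) = 1 := val_algebraMap_eq_one w hK hp
  have h3 : w (aeval x p - algebraMap K F (p.coeff 0)) < w (algebraMap K F (p.coeff 0)) := by
    rw [h2]; exact h1.trans_lt hx
  rw [← h2]
  exact Valuation.map_eq_of_sub_lt w h3

/-- **Chain lemma** (Stichtenoth 1.1.5): elements with pairwise distinct values in `(w x, 1)`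
are `K[x]`-independent. -/
theorem polyIndep_of_val (hK : ∀ c : K, w (algebraMap K F c) ≤ 1) {x : F} (hx0 : x ≠ 0)
    {ι : Type*} [Fintype ι] (y : ι → F) (h1 : ∀ i, w (y i) < 1) (h2 : ∀ i, w x ≤ w (y i))
    (h3 : Function.Injective (fun i => w (y i))) : PolyIndep K x y := by
  classical
  by_contra hcon
  obtain ⟨ψ, hψ, i₀, hi₀⟩ := exists_rel_coeff_zero_ne hx0 hcon
  have hwx0 : w x ≠ 0 := (Valuation.ne_zero_iff w).mpr hx0
  have hx1 : w x < 1 := (h2 i₀).trans_lt (h1 i₀)
  set T : Finset ι := Finset.univ.filter (fun i => (ψ i).coeff 0 ≠ 0) with hT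
  have hTne : T.Nonempty := ⟨i₀, by simp [hT, hi₀]⟩
  obtain ⟨j, hjT, hjmax⟩ := Finset.exists_max_image T (fun i => w (y i)) hTne
  have hj : (ψ j).coeff 0 ≠ 0 := by simpa [hT] using hjT
  have hyj0 : w (y j) ≠ 0 := fun h0 => hwx0 (le_antisymm (h0 ▸ h2 j) zero_le)
  have hterm : w (aeval x (ψ j) * y j) = w (y j) := by
    rw [map_mul, val_aeval_eq_one w hK hx1 hj, one_mul]
  have hsum : ∑ i ∈ Finset.univ.erase j, aeval x (ψ i) * y i = -(aeval x (ψ j) * y j) := by
    rw [eq_neg_iff_add_eq_zero, Finset.sum_erase_add _ _ (Finset.mem_univ j), hψ]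
  have hlt : w (∑ i ∈ Finset.univ.erase j, aeval x (ψ i) * y i) < w (y j) := by
    refine w.map_sum_lt hyj0 fun i hi => ?_
    have hij : i ≠ j := (Finset.mem_erase.mp hi).1
    rw [map_mul]
    by_cases hiT : (ψ i).coeff 0 ≠ 0
    · rw [val_aeval_eq_one w hK hx1 hiT, one_mul]
      have hle := hjmax i (by simp [hT, hiT])
      exact lt_of_le_of_ne hle fun he => hij (h3 he)
    · push Not at hiT
      calc w (aeval x (ψ i)) * w (y i) ≤ w x * w (y i) :=
            mul_le_mul' (val_aeval_le_of_coeff_zero w hK hx1.le hiT) le_rfl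
        _ < w x * 1 := by
            exact mul_lt_mul_of_pos_left (h1 i) (zero_lt_iff.mpr hwx0)
        _ = w x := mul_one _
        _ ≤ w (y j) := h2 j
  rw [hsum, Valuation.map_neg, hterm] at hlt
  exact lt_irrefl _ hlt

/-- A nonzero element of positive valuation is transcendental over the constants. -/
theorem transcendental_of_val_lt_one (hK : ∀ c : K, w (algebraMap K F c) ≤ 1) {x : F}
    (hx0 : x ≠ 0) (hx : w x < 1) : Transcendental K x := by
  have h := polyIndep_of_val w hK hx0 (fun _ : Unit => x) (fun _ => hx) (fun _ => le_rfl)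
    (fun a b _ => Subsingleton.elim a b)
  rw [transcendental_iff]
  intro p hp
  exact h (fun _ => p) (by simp [hp]) ()

/-- Nonzero algebraic elements have valuation one. -/
theorem val_eq_one_of_isAlgebraic (hK : ∀ c : K, w (algebraMap K F c) ≤ 1) {x : F}
    (hx0 : x ≠ 0) (hx : IsAlgebraic K x) : w x = 1 := by
  rcases lt_trichotomy (w x) 1 with h | h | h
  · exact absurd hx (transcendental_of_val_lt_one w hK hx0 h)
  · exact h
  · have h' : w x⁻¹ < 1 := by
      rw [map_inv₀]
      exact inv_lt_one_of_one_lt₀ h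
    exact absurd hx.inv (transcendental_of_val_lt_one w hK (inv_ne_zero hx0) h')

end valuation

/-- `F/K` is a function field in one variable, in the form used by this library. -/
class IsFF1 (K F : Type*) [Field K] [Field F] [Algebra K F] : Prop where
  exists_transcendental : ∃ x : F, Transcendental K x
  exists_degBound : ∀ x : F, Transcendental K x → ∃ N : ℕ, DegBound K x N

theorem degBound_degX [IsFF1 K F] {x : F} (hx : Transcendental K x) :
    DegBound K x (degX K x) := by
  obtain ⟨N, hN⟩ := IsFF1.exists_degBound x hx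
  exact hN.degBound_degX

theorem exists_polyIndep_degX [IsFF1 K F] {x : F} (hx : Transcendental K x) :
    ∃ y : Fin (degX K x) → F, PolyIndep K x y := by
  obtain ⟨N, hN⟩ := IsFF1.exists_degBound x hx
  exact hN.exists_polyIndep_degX

theorem degX_pos [IsFF1 K F] {x : F} (hx : Transcendental K x) : 0 < degX K x := by
  have h := (degBound_degX hx).card_le (transcendental_iff_polyIndep_one.mp hx)
  simp only [Fintype.card_unit] at h
  omega

end Fermat.Agent.S26.FF
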