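import Mathlib
import Fermat.Agent.S26.FF.Prim

/-!
# S26 / CURVE (T0): how to obtain `IsFF1 K F` (helper9503)

* `PolyIndep.linearIndependent_adjoin` : `K[x]`-independent families are `K(x)`-independent.
* `degBound_of_finite` : `[F : K(x)] < ∞` gives `DegBound K x (finrank K⟮x⟯ F)`.
* `isFF1_of_essFiniteType_of_trdeg` : a finitely generated field extension of transcendence
  degree one is a function field in one variable in the sense of `IsFF1`.
* `isFF1_of_finite` : so is a field finite over `K(x₀)` for one transcendental `x₀`.
-/

set_option autoImplicit false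

namespace Fermat.Agent.S26.FF

open Polynomial IntermediateField

variable {K F : Type*} [Field K] [Field F] [Algebra K F]

/-- `K[x]`-independent families are linearly independent over the field `K(x)`. -/
theorem PolyIndep.linearIndependent_adjoin {x : F} {ι : Type*} [Fintype ι] {y : ι → F}
    (h : PolyIndep K x y) : LinearIndependent K⟮x⟯ y := by
  classical
  rw [Fintype.linearIndependent_iff]
  intro c hc
  have hrep : ∀ i, ∃ p q : K[X], aeval x q ≠ 0 ∧ (c i : F) = aeval x p / aeval x q := by
    intro i
    obtain ⟨r, s, hrs⟩ := (IntermediateField.mem_adjoin_simple_iff K (c i : F)).mp (c i).2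
    by_cases hs : aeval x s = 0
    · exact ⟨0, 1, by simp, by rw [hrs, hs]; simp⟩
    · exact ⟨r, s, hs, hrs⟩
  choose p q hq hpq using hrep
  have hsum : ∑ i, (c i : F) * y i = 0 := by
    rw [← hc]
    exact Finset.sum_congr rfl fun i _ => rfl
  have hrel : ∑ i, aeval x (p i * ∏ j ∈ Finset.univ.erase i, q j) * y i = 0 := by
    have hQ : (∏ j, aeval x (q j)) * ∑ i, (c i : F) * y i = 0 := by
      rw [hsum, mul_zero]
    rw [← hQ, Finset.mul_sum]
    refine Finset.sum_congr rfl fun i _ => ?_
    rw [map_mul, map_prod, hpq i, ← Finset.mul_prod_erase Finset.univ _ (Finset.mem_univ i)]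
    have := hq i
    field_simp
  have h0 := h _ hrel
  intro i
  have h1 := congrArg (aeval x) (h0 i)
  rw [map_mul, map_prod, map_zero] at h1
  have h2 : aeval x (p i) = 0 := by
    rcases mul_eq_zero.mp h1 with h' | h'
    · exact h'
    · exact absurd h' (Finset.prod_ne_zero_iff.mpr fun j _ => hq j)
  have h3 : (c i : F) = 0 := by rw [hpq i, h2, zero_div]
  exact Subtype.ext h3

theorem degBound_of_finite (x : F) [Module.Finite K⟮x⟯ F] :
    DegBound K x (Module.finrank K⟮x⟯ F) := by
  intro m y hy
  have := (hy.linearIndependent_adjoin).fintype_card_le_finrank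
  simpa using this

/-- In a finitely generated field extension of transcendence degree one, the field is finite
over `K(x)` for every transcendental `x`. -/
theorem finite_adjoin_of_transcendental [Algebra.EssFiniteType K F]
    (h : Algebra.trdeg K F = 1) {x : F} (hx : Transcendental K x) : Module.Finite K⟮x⟯ F := by
  have hind : AlgebraicIndependent K (fun _ : Unit => x) :=
    algebraicIndependent_unique_type_iff.mpr hx
  have hbasis : IsTranscendenceBasis K (fun _ : Unit => x) :=
    hind.isTranscendenceBasis_of_lift_trdeg_le_of_finite (by rw [h]; simp)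
  have halg := hbasis.isAlgebraic_field
  rw [Set.range_const] at halg
  have hess : Algebra.EssFiniteType K⟮x⟯ F := Algebra.EssFiniteType.of_comp K K⟮x⟯ F
  exact Algebra.finite_of_essFiniteType_of_isAlgebraic

/-- A finitely generated field extension of transcendence degree one is a function field in
one variable. -/
theorem isFF1_of_essFiniteType_of_trdeg [Algebra.EssFiniteType K F]
    (h : Algebra.trdeg K F = 1) : IsFF1 K F where
  exists_transcendental := by
    by_contra hcon
    push Not at hcon
    have halg : Algebra.IsAlgebraic K F := ⟨fun x => by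
      have := hcon x
      rwa [Transcendental, not_not] at this⟩
    have h0 := trdeg_eq_zero (R := K) (A := F)
    rw [h] at h0
    exact one_ne_zero h0
  exists_degBound := by
    intro x hx
    have hfin : Module.Finite K⟮x⟯ F := finite_adjoin_of_transcendental h hx
    exact ⟨_, degBound_of_finite x⟩

/-- For transcendental `x` with `[F : K(x)] < ∞`: `degX K x = [F : K(x)]`. -/
theorem degX_eq_finrank {x : F} (hx : Transcendental K x) [Module.Finite K⟮x⟯ F] :
    degX K x = Module.finrank K⟮x⟯ F := by
  refine le_antisymm (degBound_of_finite x).degX_le ?_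
  let b := Module.finBasis K⟮x⟯ F
  have hb : PolyIndep K x (fun i => (b i : F)) := by
    intro φ hφ i
    have hmem : ∀ j, aeval x (φ j) ∈ K⟮x⟯ := fun j =>
      IntermediateField.algebra_adjoin_le_adjoin K {x} (Polynomial.aeval_mem_adjoin_singleton K x)
    have h1 : ∑ j, (⟨aeval x (φ j), hmem j⟩ : K⟮x⟯) • b j = 0 := by
      rw [← hφ]
      exact Finset.sum_congr rfl fun j _ => rfl
    have h2 := Fintype.linearIndependent_iff.mp b.linearIndependent _ h1 i
    have h3 : aeval x (φ i) = 0 := congrArg Subtype.val h2
    exact transcendental_iff.mp hx _ h3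
  have := (degBound_of_finite x).degBound_degX.card_le hb
  simpa using this

open scoped IntermediateField.algebraAdjoinAdjoin in
/-- A field which is finite over `K(x₀)` for a transcendental `x₀` is a function field in one
variable. -/
theorem isFF1_of_finite {x₀ : F} (hx₀ : Transcendental K x₀) [Module.Finite K⟮x₀⟯ F] :
    IsFF1 K F := by
  have hess1 : Algebra.EssFiniteType K K⟮x₀⟯ :=
    IntermediateField.essFiniteType_iff.mpr (IntermediateField.fg_adjoin_of_finite
      (Set.finite_singleton x₀))
  have hess : Algebra.EssFiniteType K F := Algebra.EssFiniteType.comp K K⟮x₀⟯ F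
  have hind : AlgebraicIndependent K (fun _ : Unit => x₀) :=
    algebraicIndependent_unique_type_iff.mpr hx₀
  have halg1 : Algebra.IsAlgebraic K⟮x₀⟯ F := Algebra.IsAlgebraic.of_finite K⟮x₀⟯ F
  have halg : Algebra.IsAlgebraic (Algebra.adjoin K (Set.range fun _ : Unit => x₀)) F := by
    rw [Set.range_const]
    exact (IsFractionRing.comap_isAlgebraic_iff (A := Algebra.adjoin K {x₀})
      (K := K⟮x₀⟯) (C := F)).mpr halg1
  have hbasis : IsTranscendenceBasis K (fun _ : Unit => x₀) :=
    hind.isTranscendenceBasis_iff_isAlgebraic.mpr halg
  have htr := hbasis.lift_cardinalMk_eq_trdeg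
  have h1 : Algebra.trdeg K F = 1 := by
    simp only [Cardinal.mk_fintype, Fintype.card_unit, Nat.cast_one, Cardinal.lift_one] at htr
    exact (Cardinal.lift_eq_one.mp htr.symm)
  exact isFF1_of_essFiniteType_of_trdeg h1

end Fermat.Agent.S26.FF
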