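import Mathlib
import Fermat.Agent.S26.FF.Prim

/-!
# S26 / CURVE (C2): valuation rings of a function field are discrete; existence of places
(helper9503)

* `isPrincipalIdealRing_of_valuationSubring` : a valuation subring of `F` containing `K` is a PID
  (Stichtenoth 1.1.6).
* `placeOf` : the `Place K F` attached to a proper valuation subring containing `K`.
* `exists_place_pos_ord`, `exists_place_neg_ord` : every transcendental element has a zero and a
  pole (Stichtenoth 1.1.19/1.1.20).
* `ord_eq_zero_of_isAlgebraic`, `transcendental_of_ord_ne_zero`,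
  `isAlgebraic_of_forall_ord_nonneg`.
-/

set_option autoImplicit false

namespace Fermat.Agent.S26.FF

open AlgebraicCurve Polynomial

variable {K F : Type*} [Field K] [Field F] [Algebra K F]

/-- A valuation subring of a function field containing the constants is a PID. -/
theorem isPrincipalIdealRing_of_valuationSubring [IsFF1 K F] (A : ValuationSubring F)
    (hK : ∀ c : K, algebraMap K F c ∈ A) : IsPrincipalIdealRing A := by
  have hw : ∀ c : K, A.valuation (algebraMap K F c) ≤ 1 :=
    fun c => (A.valuation_le_one_iff _).mpr (hK c)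
  have hwf : WfDvdMonoid A := by
    refine ⟨?_⟩
    rw [wellFounded_iff_isEmpty_descending_chain]
    refine ⟨fun ⟨f, hstep⟩ => ?_⟩
    set W : ℕ → A.ValueGroup := fun n => A.valuation ((f n : A) : F) with hW
    have hne : ∀ n : ℕ, ((f (n + 1) : A) : F) ≠ 0 := by
      intro n h0
      exact (hstep n).1 (Subtype.ext h0)
    have hWne : ∀ n : ℕ, W (n + 1) ≠ 0 := fun n => (Valuation.ne_zero_iff _).mpr (hne n)
    have hlt : ∀ n : ℕ, W n < W (n + 1) ∧ W n < 1 := by
      intro n
      obtain ⟨-, u, hu, hfu⟩ := hstep n
      have hu1 : A.valuation (u : F) < 1 := by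
        rcases A.valuation_lt_one_or_eq_one u with h | h
        · exact h
        · exact absurd ((A.valuation_eq_one_iff u).mpr h) hu
      have hWn : W n = W (n + 1) * A.valuation (u : F) := by
        simp only [hW]
        rw [← map_mul]
        congr 1
        exact congrArg Subtype.val hfu
      constructor
      · rw [hWn]
        calc W (n + 1) * A.valuation (u : F) < W (n + 1) * 1 :=
              mul_lt_mul_of_pos_left hu1 (zero_lt_iff.mpr (hWne n))
          _ = W (n + 1) := mul_one _
      · rw [hWn]
        calc W (n + 1) * A.valuation (u : F) ≤ 1 * A.valuation (u : F) :=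
              mul_le_mul' (A.valuation_le_one _) le_rfl
          _ = A.valuation (u : F) := one_mul _
          _ < 1 := hu1
    have hmono : StrictMono W := strictMono_nat_of_lt_succ fun n => (hlt n).1
    set x : F := ((f 1 : A) : F) with hx
    have hx0 : x ≠ 0 := hne 0
    have hxt : Transcendental K x := transcendental_of_val_lt_one A.valuation hw hx0 (hlt 1).2
    obtain ⟨N, hN⟩ := IsFF1.exists_degBound x hxt
    have hind : PolyIndep K x (fun i : Fin (N + 1) => ((f (i.val + 1) : A) : F)) := by
      refine polyIndep_of_val A.valuation hw hx0 _ (fun i => (hlt _).2) (fun i => ?_) ?_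
      · exact hmono.monotone (by omega)
      · intro i j hij
        have := hmono.injective hij
        exact Fin.ext (by omega)
    have := hN _ _ hind
    omega
  exact ((IsBezout.TFAE (R := A)).out 3 1).mp hwf

/-- The place attached to a proper valuation subring containing the constants. -/
noncomputable def placeOf [IsFF1 K F] (A : ValuationSubring F)
    (hK : ∀ c : K, algebraMap K F c ∈ A) (hA : A ≠ ⊤) : Place K F :=
  ⟨A, hK, hA, isPrincipalIdealRing_of_valuationSubring A hK⟩

@[simp]
theorem placeOf_toValuationSubring [IsFF1 K F] (A : ValuationSubring F)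
    (hK : ∀ c : K, algebraMap K F c ∈ A) (hA : A ≠ ⊤) :
    (placeOf A hK hA).toValuationSubring = A := rfl

theorem adicValuation_algebraMap_le (v : Place K F) (c : K) :
    v.adicValuation (algebraMap K F c) ≤ 1 :=
  v.adicValuation_algebraMap_le_one c

/-- Algebraic elements have neither zeros nor poles. -/
theorem ord_eq_zero_of_isAlgebraic (v : Place K F) {x : F} (hx : IsAlgebraic K x) :
    v.ord x = 0 := by
  rcases eq_or_ne x 0 with rfl | hx0
  · simp
  have h := val_eq_one_of_isAlgebraic v.adicValuation (adicValuation_algebraMap_le v) hx0 hx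
  simp [Place.ord, h]

theorem transcendental_of_ord_ne_zero (v : Place K F) {x : F} (h : v.ord x ≠ 0) :
    Transcendental K x := fun hx => h (ord_eq_zero_of_isAlgebraic v hx)

/-- Every transcendental element has a zero. -/
theorem exists_place_pos_ord [IsFF1 K F] {x : F} (hx : Transcendental K x) :
    ∃ v : Place K F, 0 < v.ord x := by
  have hx0 : x ≠ 0 := by
    rintro rfl
    exact hx (isAlgebraic_zero)
  let S : Subalgebra K F := Algebra.adjoin K {x}
  let xS : S.toSubring := ⟨x, Algebra.subset_adjoin rfl⟩
  have hI : Ideal.span {xS} ≠ ⊤ := by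
    intro h
    rw [Ideal.span_singleton_eq_top] at h
    obtain ⟨r, hr⟩ := isUnit_iff_exists_inv.mp h
    have hr' : x * (r : F) = 1 := congrArg Subtype.val hr
    obtain ⟨p, hp⟩ : ∃ p : K[X], aeval x p = (r : F) := by
      have h1 : (r : F) ∈ Algebra.adjoin K {x} := r.2
      rw [Algebra.adjoin_singleton_eq_range_aeval] at h1
      exact h1
    have h0 : aeval x (X * p - 1) = 0 := by simp [hp, hr']
    have h1 := (transcendental_iff.mp hx) _ h0
    have h2 := congrArg (fun q : K[X] => q.coeff 0) h1
    simp at h2
  obtain ⟨B, hB1, hB2⟩ := Ideal.image_subset_nonunits_valuationSubring _ hI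
  have hxB : x ∈ B.nonunits := hB2 ⟨xS, Ideal.subset_span rfl, rfl⟩
  have hKB : ∀ c : K, algebraMap K F c ∈ B := fun c => hB1 (S.algebraMap_mem c)
  have hxinv : x⁻¹ ∉ B := (B.mem_nonunits_iff_or.mp hxB).resolve_left hx0
  have hBtop : B ≠ ⊤ := by
    rintro rfl
    exact hxinv (ValuationSubring.mem_top _)
  refine ⟨placeOf B hKB hBtop, ?_⟩
  have h1 : ¬ (0 ≤ (placeOf B hKB hBtop).ord x⁻¹) := fun h =>
    hxinv (mem_of_ord_nonneg (placeOf B hKB hBtop) h)
  rw [Place.ord_inv] at h1
  omega

/-- Every transcendental element has a pole. -/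
theorem exists_place_neg_ord [IsFF1 K F] {x : F} (hx : Transcendental K x) :
    ∃ v : Place K F, v.ord x < 0 := by
  have hx' : Transcendental K x⁻¹ := fun h => hx (by simpa using h.inv)
  obtain ⟨v, hv⟩ := exists_place_pos_ord hx'
  refine ⟨v, ?_⟩
  rw [Place.ord_inv] at hv
  omega

instance instNonemptyPlace [IsFF1 K F] : Nonempty (Place K F) := by
  obtain ⟨x, hx⟩ := IsFF1.exists_transcendental (K := K) (F := F)
  obtain ⟨v, -⟩ := exists_place_pos_ord hx
  exact ⟨v⟩

/-- An element without poles is algebraic over the constants. -/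
theorem isAlgebraic_of_forall_ord_nonneg [IsFF1 K F] {x : F}
    (h : ∀ v : Place K F, 0 ≤ v.ord x) : IsAlgebraic K x := by
  by_contra hx
  obtain ⟨v, hv⟩ := exists_place_neg_ord (K := K) (x := x) hx
  exact absurd (h v) (by omega)

end Fermat.Agent.S26.FF
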