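import Mathlib
import Fermat.Agent.S26.FF.Prim

/-!
# S26 / CURVE (C3a): order bounds, local spaces, independence modulo a subspace (helper9503)

* `OrdGe v n f` : `f = 0 ∨ n ≤ ord_v f` (closed under sums; products add the bounds).
* `localSpace v d` : the `K`-subspace `{f | ∀ i, OrdGe (v i) (d i) f}` for a family of places.
* `IndepMod W u` : the finite family `u` is `K`-linearly independent modulo the subspace `W`.
* `DimGe V W m` : there are `m` elements of `V` independent modulo `W`.
* `ResIndep v s` : the residues of `s` at `v` are `K`-linearly independent, in elementary form;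
  bridges to `LinearIndependent` in the residue field.
-/

set_option autoImplicit false

namespace Fermat.Agent.S26.FF

open AlgebraicCurve Polynomial

variable {K F : Type*} [Field K] [Field F] [Algebra K F]

/-- `f = 0` or `n ≤ ord_v f`. -/
def OrdGe (v : Place K F) (n : ℤ) (f : F) : Prop := f = 0 ∨ n ≤ v.ord f

section ordGe

variable {v : Place K F} {n m : ℤ} {f g : F}

theorem ordGe_iff_val : OrdGe v n f ↔ v.adicValuation f ≤ WithZero.exp (-n) := by
  rw [v.adicValuation_le_exp_iff, neg_neg]
  rfl

theorem ordGe_zero_right (v : Place K F) (n : ℤ) : OrdGe v n 0 := Or.inl rfl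

theorem ordGe_of_le (h : n ≤ v.ord f) : OrdGe v n f := Or.inr h

theorem OrdGe.le_ord (h : OrdGe v n f) (hf : f ≠ 0) : n ≤ v.ord f := h.resolve_left hf

theorem OrdGe.mono (h : OrdGe v m f) (hnm : n ≤ m) : OrdGe v n f :=
  h.imp id fun h' => hnm.trans h'

theorem OrdGe.add (hf : OrdGe v n f) (hg : OrdGe v n g) : OrdGe v n (f + g) := by
  rw [ordGe_iff_val] at *
  exact (Valuation.map_add _ _ _).trans (max_le hf hg)

theorem OrdGe.neg (hf : OrdGe v n f) : OrdGe v n (-f) := by
  rw [ordGe_iff_val] at *
  rwa [Valuation.map_neg]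

theorem OrdGe.sub (hf : OrdGe v n f) (hg : OrdGe v n g) : OrdGe v n (f - g) := by
  rw [sub_eq_add_neg]
  exact hf.add hg.neg

theorem OrdGe.sum {ι : Type*} (s : Finset ι) (u : ι → F) (h : ∀ i ∈ s, OrdGe v n (u i)) :
    OrdGe v n (∑ i ∈ s, u i) := by
  rw [ordGe_iff_val]
  exact Valuation.map_sum_le _ fun i hi => ordGe_iff_val.mp (h i hi)

theorem OrdGe.mul (hf : OrdGe v n f) (hg : OrdGe v m g) : OrdGe v (n + m) (f * g) := by
  rcases eq_or_ne f 0 with rfl | hf0
  · simp [ordGe_zero_right]
  rcases eq_or_ne g 0 with rfl | hg0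
  · simp [ordGe_zero_right]
  refine Or.inr ?_
  rw [v.ord_mul hf0 hg0]
  exact add_le_add (hf.le_ord hf0) (hg.le_ord hg0)

theorem ordGe_algebraMap (v : Place K F) (c : K) : OrdGe v 0 (algebraMap K F c) :=
  Or.inr (ord_algebraMap v c).ge

theorem OrdGe.smul (c : K) (hf : OrdGe v n f) : OrdGe v n (c • f) := by
  rw [Algebra.smul_def]
  simpa using (ordGe_algebraMap v c).mul hf

theorem ordGe_zero_iff_mem : OrdGe v 0 f ↔ f ∈ v.toValuationSubring := by
  rw [mem_iff_ord_nonneg]
  constructor
  · rintro (rfl | h)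
    · simp
    · exact h
  · exact fun h => Or.inr h

theorem ordGe_self (v : Place K F) (f : F) : OrdGe v (v.ord f) f := Or.inr le_rfl

theorem OrdGe.pow (hf : OrdGe v n f) (k : ℕ) : OrdGe v (k * n) (f ^ k) := by
  induction k with
  | zero => simpa using ordGe_of_le (v := v) (f := (1 : F)) (n := 0) (by simp)
  | succ k ih =>
    rw [pow_succ]
    have := ih.mul hf
    convert this using 1
    push_cast
    ring

theorem OrdGe.aeval {x : F} (hx : OrdGe v 0 x) (p : K[X]) : OrdGe v 0 (aeval x p) := by
  rw [aeval_eq_sum_range]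
  refine OrdGe.sum _ _ fun i _ => ?_
  have := (hx.pow i).smul (p.coeff i)
  simpa using this

/-- cancelling a factor of exact order -/
theorem OrdGe.of_mul_left {w : F} (hw : w ≠ 0) (h : OrdGe v (v.ord w + n) (w * f)) :
    OrdGe v n f := by
  rcases eq_or_ne f 0 with rfl | hf0
  · exact ordGe_zero_right v n
  refine Or.inr ?_
  have := h.le_ord (mul_ne_zero hw hf0)
  rw [v.ord_mul hw hf0] at this
  omega

end ordGe

/-- The `K`-subspace of functions with `ord_{v i} ≥ d i` for all `i`. -/
def localSpace {ι : Type*} (v : ι → Place K F) (d : ι → ℤ) : Submodule K F where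
  carrier := {f | ∀ i, OrdGe (v i) (d i) f}
  zero_mem' := fun _ => ordGe_zero_right _ _
  add_mem' := fun hf hg i => (hf i).add (hg i)
  smul_mem' := fun c _ hf i => (hf i).smul c

theorem mem_localSpace {ι : Type*} {v : ι → Place K F} {d : ι → ℤ} {f : F} :
    f ∈ localSpace v d ↔ ∀ i, OrdGe (v i) (d i) f := Iff.rfl

theorem localSpace_mono {ι : Type*} (v : ι → Place K F) {d d' : ι → ℤ} (h : d ≤ d') :
    localSpace v d' ≤ localSpace v d := fun _ hf i => (hf i).mono (h i)

/-- The finite family `u` is `K`-linearly independent modulo `W`. -/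
def IndepMod (W : Submodule K F) {α : Type*} [Fintype α] (u : α → F) : Prop :=
  ∀ c : α → K, ∑ a, c a • u a ∈ W → ∀ a, c a = 0

/-- There are `m` elements of `V` which are `K`-linearly independent modulo `W`. -/
def DimGe (V W : Submodule K F) (m : ℕ) : Prop :=
  ∃ (α : Type) (_ : Fintype α) (u : α → F),
    Fintype.card α = m ∧ (∀ a, u a ∈ V) ∧ IndepMod W u

theorem dimGe_zero (V W : Submodule K F) : DimGe V W 0 :=
  ⟨Empty, inferInstance, fun a => a.elim, by simp, fun a => a.elim, fun _ _ a => a.elim⟩

theorem DimGe.add {V W U : Submodule K F} {m n : ℕ} (hUW : U ≤ W) (h1 : DimGe V W m)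
    (h2 : DimGe W U n) (hWV : W ≤ V) : DimGe V U (m + n) := by
  obtain ⟨α, _, a, ha, haV, hia⟩ := h1
  obtain ⟨β, _, b, hb, hbW, hib⟩ := h2
  refine ⟨α ⊕ β, inferInstance, Sum.elim a b, by simp [ha, hb], ?_, ?_⟩
  · rintro (x | y)
    · exact haV x
    · exact hWV (hbW y)
  · intro c hc
    rw [Fintype.sum_sum_type] at hc
    simp only [Sum.elim_inl, Sum.elim_inr] at hc
    have hbsum : ∑ y, c (Sum.inr y) • b y ∈ W :=
      Submodule.sum_mem _ fun y _ => Submodule.smul_mem _ _ (hbW y)
    have h1 : ∑ x, c (Sum.inl x) • a x ∈ W := by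
      have := W.sub_mem (hUW hc) hbsum
      simpa using this
    have hc1 := hia (fun x => c (Sum.inl x)) h1
    have h2 : ∑ y, c (Sum.inr y) • b y ∈ U := by
      simpa [hc1] using hc
    have hc2 := hib (fun y => c (Sum.inr y)) h2
    rintro (x | y)
    · exact hc1 x
    · exact hc2 y

/-- The residues at `v` of the family `s` are `K`-linearly independent (elementary form). -/
def ResIndep (v : Place K F) {α : Type*} [Fintype α] (s : α → F) : Prop :=
  ∀ c : α → K, OrdGe v 1 (∑ a, c a • s a) → ∀ a, c a = 0

section residue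

variable (v : Place K F)

theorem residue_eq_zero_iff (a : v.toValuationSubring) :
    IsLocalRing.residue v.toValuationSubring a = 0 ↔ OrdGe v 1 (a : F) := by
  rw [IsLocalRing.residue_eq_zero_iff, IsLocalRing.mem_maximalIdeal, mem_nonunits_iff]
  rcases eq_or_ne (a : F) 0 with h0 | h0
  · have ha : a = 0 := Subtype.ext h0
    subst ha
    simp [ordGe_zero_right]
  have hord : 0 ≤ v.ord (a : F) := ord_nonneg_of_mem v a.2
  rw [← v.adicValuation_coe_eq_one_iff, v.adicValuation_eq_exp_neg_ord h0]
  constructor
  · intro h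
    refine Or.inr ?_
    by_contra hlt
    apply h
    have : v.ord (a : F) = 0 := by omega
    simp [this]
  · intro h h1
    have h2 := h.le_ord h0
    rw [← WithZero.exp_zero, WithZero.exp_inj] at h1
    omega

/-- Lifting a linearly independent family of the residue field. -/
theorem exists_resIndep_of_linearIndependent {α : Type*} [Fintype α]
    {r : α → v.ResidueField} (hr : LinearIndependent K r) :
    ∃ s : α → F, (∀ a, OrdGe v 0 (s a)) ∧ ResIndep v s := by
  have hsurj := IsLocalRing.residue_surjective (R := v.toValuationSubring)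
  choose s' hs' using fun a => hsurj (r a)
  refine ⟨fun a => (s' a : F), fun a => ordGe_zero_iff_mem.mpr (s' a).2, ?_⟩
  intro c hc
  have hmem : (∑ a, c a • ((s' a : v.toValuationSubring) : F))
      = ((∑ a, c a • s' a : v.toValuationSubring) : F) := by
    rw [AddSubmonoidClass.coe_finsetSum]
    refine Finset.sum_congr rfl fun a _ => ?_
    rw [Algebra.smul_def, Algebra.smul_def]
    rfl
  rw [hmem, ← residue_eq_zero_iff, map_sum] at hc
  have hc' : ∑ a, c a • r a = 0 := by
    rw [← hc]
    refine Finset.sum_congr rfl fun a _ => ?_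
    rw [← hs' a, Algebra.smul_def, Algebra.smul_def, map_mul]
    rfl
  exact (Fintype.linearIndependent_iff.mp hr) c hc'

/-- A residue-independent family gives a linearly independent family of the residue field. -/
theorem ResIndep.linearIndependent {α : Type*} [Fintype α] {s : α → F}
    (hs0 : ∀ a, OrdGe v 0 (s a)) (hs : ResIndep v s) :
    LinearIndependent K (fun a => IsLocalRing.residue v.toValuationSubring
      ⟨s a, ordGe_zero_iff_mem.mp (hs0 a)⟩) := by
  rw [Fintype.linearIndependent_iff]
  intro c hc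
  apply hs c
  have hmem : (∑ a, c a • s a)
      = ((∑ a, c a • (⟨s a, ordGe_zero_iff_mem.mp (hs0 a)⟩ : v.toValuationSubring) :
          v.toValuationSubring) : F) := by
    rw [AddSubmonoidClass.coe_finsetSum]
    refine Finset.sum_congr rfl fun a _ => ?_
    rw [Algebra.smul_def, Algebra.smul_def]
    rfl
  rw [hmem, ← residue_eq_zero_iff, map_sum, ← hc]
  refine Finset.sum_congr rfl fun a _ => ?_
  rw [Algebra.smul_def, Algebra.smul_def, map_mul]
  rfl

end residue

end Fermat.Agent.S26.FF
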