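import Mathlib
import Fermat.Agent.S26.FF.OrdGe
import Fermat.Agent.S26.FF.Exists

/-!
# S26 / CURVE (C3): zeros of a function (Stichtenoth 1.3.3) (helper9503)

For distinct places `v i` at which `x` has no pole and residue-independent families `s i`:
`∑ i, ord_{v i}(x) * #(s i) ≤ [F : K(x)]`  (`sum_ord_mul_le`).
Consequences (for a function field `IsFF1 K F`): residue fields are finite over `K`
(`finite_residueField`), `0 < v.deg`, `∑_{v ∈ S} ord_v(x) deg v ≤ N` (`sum_ord_mul_deg_le`),
a function has finitely many zeros and poles (`finite_ord_ne_zero`), the principal divisor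
`divOf x`, its zero and pole parts and `degree (zeroDiv x) ≤ degX K x`.
-/

set_option autoImplicit false

namespace Fermat.Agent.S26.FF

open AlgebraicCurve Polynomial

variable {K F : Type*} [Field K] [Field F] [Algebra K F]

theorem ResIndep.comp_equiv {v : Place K F} {α β : Type*} [Fintype α] [Fintype β] {s : α → F}
    (hs : ResIndep v s) (e : β ≃ α) : ResIndep v (s ∘ e) := by
  intro c hc b
  have h1 : ∑ a, c (e.symm a) • s a = ∑ b, c b • (s ∘ e) b :=
    (Fintype.sum_equiv e _ _ (fun k => by simp)).symm
  have := hs (fun a => c (e.symm a)) (by rw [h1]; exact hc) (e b)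
  simpa using this

/-- One step of the filtration of local spaces: `dim V(d)/V(d + [k]) ≥ #s` for a
residue-independent family `s` at `v k`. -/
theorem dimGe_localSpace_step {ι : Type*} [Finite ι] [DecidableEq ι] (v : ι → Place K F)
    (hv : Function.Injective v) (d : ι → ℤ) (k : ι) {α : Type} [Fintype α] (s : α → F)
    (hs0 : ∀ a, OrdGe (v k) 0 (s a)) (hs : ResIndep (v k) s) :
    DimGe (localSpace v d) (localSpace v (d + Pi.single k 1)) (Fintype.card α) := by
  obtain ⟨w, hw⟩ := exists_approx_ord v hv (fun _ => 0) d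
  simp only [sub_zero] at hw
  have hw0 : w ≠ 0 := (hw k).1
  have hwd : ∀ i, (v i).ord w = d i := fun i => (hw i).2
  choose z hz using fun a => exists_approx v hv (fun i => if i = k then s a else 0) 0
  have hzk : ∀ a, OrdGe (v k) 1 (z a - s a) := by
    intro a
    have h := hz a k
    simp only [if_true] at h
    rcases h with h | h
    · rw [h, sub_self]; exact ordGe_zero_right _ _
    · exact Or.inr (by omega)
  have hzi : ∀ a i, i ≠ k → OrdGe (v i) 1 (z a) := by
    intro a i hik
    have h := hz a i
    simp only [if_neg hik, sub_zero] at h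
    rcases h with h | h
    · rw [h]; exact ordGe_zero_right _ _
    · exact Or.inr (by omega)
  have hz0 : ∀ a i, OrdGe (v i) 0 (z a) := by
    intro a i
    by_cases hik : i = k
    · subst hik
      have e : z a = (z a - s a) + s a := by ring
      rw [e]
      exact ((hzk a).mono (by norm_num)).add (hs0 a)
    · exact (hzi a i hik).mono (by norm_num)
  refine ⟨α, inferInstance, fun a => w * z a, rfl, ?_, ?_⟩
  · intro a i
    have h := (ordGe_self (v i) w).mul (hz0 a i)
    rwa [hwd i, add_zero] at h
  · intro c hc
    apply hs c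
    have hZ : OrdGe (v k) 1 (∑ a, c a • z a) := by
      have h1 := hc k
      have h2 : ∑ a, c a • (w * z a) = w * ∑ a, c a • z a := by
        rw [Finset.mul_sum]
        exact Finset.sum_congr rfl fun a _ => by rw [mul_smul_comm]
      rw [h2] at h1
      refine OrdGe.of_mul_left hw0 ?_
      rw [hwd k]
      simpa using h1
    have e : ∑ a, c a • s a = ∑ a, c a • z a - ∑ a, c a • (z a - s a) := by
      rw [← Finset.sum_sub_distrib]
      exact Finset.sum_congr rfl fun a _ => by rw [smul_sub]; abel
    rw [e]
    exact hZ.sub (OrdGe.sum _ _ fun a _ => (hzk a).smul (c a))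

/-- The filtration of local spaces: `dim V(d)/V(d + n) ≥ ∑ n_i f_i`. -/
theorem dimGe_localSpace {ι : Type*} [Fintype ι] [DecidableEq ι] (v : ι → Place K F)
    (hv : Function.Injective v) (f : ι → ℕ) (s : ∀ i, Fin (f i) → F)
    (hs0 : ∀ i a, OrdGe (v i) 0 (s i a)) (hs : ∀ i, ResIndep (v i) (s i)) (n : ι → ℕ)
    (d : ι → ℤ) :
    DimGe (localSpace v d) (localSpace v (fun i => d i + n i)) (∑ i, n i * f i) := by
  suffices H : ∀ t : ℕ, ∀ n : ι → ℕ, ∑ i, n i = t →
      DimGe (localSpace v d) (localSpace v (fun i => d i + n i)) (∑ i, n i * f i) from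
    H _ n rfl
  intro t
  induction t with
  | zero =>
    intro n hn
    have hn0 : ∀ i, n i = 0 := fun i => Finset.sum_eq_zero_iff.mp hn i (Finset.mem_univ i)
    have h0 : (∑ i, n i * f i) = 0 := by simp [hn0]
    rw [h0]
    exact dimGe_zero _ _
  | succ t ih =>
    intro n hn
    obtain ⟨k, hk⟩ : ∃ k, 0 < n k := by
      by_contra hcon
      push Not at hcon
      have h0 : ∑ i, n i = 0 := Finset.sum_eq_zero fun i _ => by have := hcon i; omega
      omega
    set n' : ι → ℕ := Function.update n k (n k - 1) with hn'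
    have hnn' : ∀ i, n i = n' i + (if i = k then 1 else 0) := by
      intro i
      by_cases hik : i = k
      · subst hik
        simp only [hn', Function.update_self, if_true]
        omega
      · simp [hn', hik]
    have hsum' : ∑ i, n' i = t := by
      have h1 : ∑ i, n i = ∑ i, n' i + 1 := by
        rw [Finset.sum_congr rfl fun i _ => hnn' i, Finset.sum_add_distrib]
        simp
      omega
    have h1 := ih n' hsum'
    have h2 := dimGe_localSpace_step v hv (fun i => d i + n' i) k (s k) (hs0 k) (hs k)
    have hspace : localSpace v ((fun i => d i + (n' i : ℤ)) + Pi.single k 1)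
        = localSpace v (fun i => d i + n i) := by
      congr 1
      funext i
      rw [Pi.add_apply, hnn' i]
      by_cases hik : i = k
      · subst hik
        simp
        ring
      · simp [hik]
    rw [hspace] at h2
    have hle1 : (fun i => d i + (n' i : ℤ)) ≤ fun i => d i + (n i : ℤ) := by
      intro i
      have := hnn' i
      simp only
      split_ifs at this <;> omega
    have hle2 : d ≤ fun i => d i + (n' i : ℤ) := by
      intro i
      simp only
      omega
    have h3 := DimGe.add (localSpace_mono v hle1) h1 h2 (localSpace_mono v hle2)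
    have hcount : ∑ i, n i * f i = ∑ i, n' i * f i + Fintype.card (Fin (f k)) := by
      rw [Fintype.card_fin, Finset.sum_congr rfl fun i _ => by rw [hnn' i]]
      simp [add_mul, Finset.sum_add_distrib]
    rw [hcount]
    exact h3

/-- Elements of `V(0)` independent modulo `x V(0)` are `K[x]`-independent. -/
theorem card_le_of_dimGe {ι : Type*} (v : ι → Place K F) {x : F} (hx0 : x ≠ 0)
    (hx : ∀ i, 0 ≤ (v i).ord x) {m : ℕ}
    (h : DimGe (localSpace v 0) (localSpace v (fun i => (v i).ord x)) m) {N : ℕ}
    (hN : DegBound K x N) : m ≤ N := by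
  obtain ⟨α, _, u, rfl, hu, hind⟩ := h
  refine hN.card_le (y := u) ?_
  by_contra hcon
  obtain ⟨ψ, hψ, a₀, ha₀⟩ := exists_rel_coeff_zero_ne hx0 hcon
  have hmem : ∑ a, (ψ a).coeff 0 • u a ∈ localSpace v (fun i => (v i).ord x) := by
    have e : ∑ a, (ψ a).coeff 0 • u a = -∑ a, x * (aeval x (ψ a).divX * u a) := by
      rw [eq_neg_iff_add_eq_zero, ← Finset.sum_add_distrib, ← hψ]
      refine Finset.sum_congr rfl fun a _ => ?_
      rw [aeval_eq_divX x (ψ a), Algebra.smul_def]
      ring
    rw [e]
    intro i
    refine (OrdGe.sum _ _ fun a _ => ?_).neg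
    have h1 : OrdGe (v i) 0 x := Or.inr (hx i)
    have h2 : OrdGe (v i) 0 (u a) := hu a i
    have := (ordGe_self (v i) x).mul ((h1.aeval (ψ a).divX).mul h2)
    simpa using this
  exact ha₀ (hind _ hmem a₀)

/-- **Stichtenoth 1.3.3**, elementary form. -/
theorem sum_ord_mul_le {ι : Type*} [Fintype ι] (v : ι → Place K F) (hv : Function.Injective v)
    {x : F} (hx0 : x ≠ 0) (hpos : ∀ i, 0 ≤ (v i).ord x) (f : ι → ℕ) (s : ∀ i, Fin (f i) → F)
    (hs0 : ∀ i a, OrdGe (v i) 0 (s i a)) (hs : ∀ i, ResIndep (v i) (s i)) {N : ℕ}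
    (hN : DegBound K x N) : ∑ i, ((v i).ord x).toNat * f i ≤ N := by
  classical
  have h := dimGe_localSpace v hv f s hs0 hs (fun i => ((v i).ord x).toNat) 0
  have e : (fun i => (0 : ι → ℤ) i + (((v i).ord x).toNat : ℤ)) = fun i => (v i).ord x := by
    funext i
    simp [Int.toNat_of_nonneg (hpos i)]
  rw [e] at h
  exact card_le_of_dimGe v hx0 hpos h hN

/-- A residue-independent family at a zero of `x` has at most `[F : K(x)]` members. -/
theorem card_le_of_resIndep (v : Place K F) {x : F} (hx : 0 < v.ord x) {α : Type*} [Fintype α]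
    (s : α → F) (hs0 : ∀ a, OrdGe v 0 (s a)) (hs : ResIndep v s) {N : ℕ}
    (hN : DegBound K x N) : Fintype.card α ≤ N := by
  have hx0 : x ≠ 0 := ne_zero_of_ord_ne_zero v (by omega)
  have h := sum_ord_mul_le (fun _ : Unit => v) (fun a b _ => Subsingleton.elim a b) hx0
    (fun _ => hx.le) (fun _ => Fintype.card α) (fun _ => s ∘ (Fintype.equivFin α).symm)
    (fun _ a => hs0 _) (fun _ => hs.comp_equiv _) hN
  simp only [Finset.univ_unique, Finset.sum_singleton] at h
  have h1 : 1 ≤ (v.ord x).toNat := by omega
  calc Fintype.card α = 1 * Fintype.card α := (one_mul _).symm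
    _ ≤ (v.ord x).toNat * Fintype.card α := Nat.mul_le_mul_right _ h1
    _ ≤ N := h

variable [IsFF1 K F]

/-- Residue fields of places of a function field are finite over the constants. -/
theorem finite_residueField (v : Place K F) : Module.Finite K v.ResidueField := by
  obtain ⟨t, ht⟩ := exists_uniformizer v
  have htr : Transcendental K t := transcendental_of_ord_ne_zero v (by omega)
  obtain ⟨N, hN⟩ := IsFF1.exists_degBound t htr
  rw [← Module.rank_lt_aleph0_iff]
  refine lt_of_le_of_lt (rank_le (n := N) fun S hS => ?_) Cardinal.natCast_lt_aleph0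
  obtain ⟨s, hs0, hs⟩ := exists_resIndep_of_linearIndependent v hS
  have := card_le_of_resIndep v (x := t) (by omega) s hs0 hs hN
  simpa using this

instance instFiniteResidueField (v : Place K F) : Module.Finite K v.ResidueField :=
  finite_residueField v

instance instFiniteResidue (v : Place K F) : v.FiniteResidue := ⟨finite_residueField v⟩

theorem deg_pos (v : Place K F) : 0 < v.deg := Module.finrank_pos

/-- **Stichtenoth 1.3.3**: `∑ ord_v(x) deg v ≤ [F : K(x)]` over any finite set of non-poles. -/
theorem sum_ord_mul_deg_le {x : F} (hx0 : x ≠ 0) (S : Finset (Place K F))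
    (hS : ∀ v ∈ S, 0 ≤ v.ord x) {N : ℕ} (hN : DegBound K x N) :
    ∑ v ∈ S, v.ord x * (v.deg : ℤ) ≤ N := by
  classical
  have hex : ∀ i : S, ∃ s : Fin (Module.finrank K (i : Place K F).ResidueField) → F,
      (∀ a, OrdGe (i : Place K F) 0 (s a)) ∧ ResIndep (i : Place K F) s := fun i =>
    exists_resIndep_of_linearIndependent (i : Place K F)
      (Module.finBasis K (i : Place K F).ResidueField).linearIndependent
  choose s hs0 hs using hex
  have h := sum_ord_mul_le (fun i : S => (i : Place K F)) Subtype.val_injective hx0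
    (fun i => hS i i.2) (fun i => Module.finrank K (i : Place K F).ResidueField) s hs0 hs hN
  have h2 : ∑ v ∈ S, v.ord x * (v.deg : ℤ)
      = ((∑ i : S, ((i : Place K F).ord x).toNat
          * Module.finrank K (i : Place K F).ResidueField : ℕ) : ℤ) := by
    rw [← Finset.sum_coe_sort S (fun v => v.ord x * (v.deg : ℤ)), Nat.cast_sum]
    refine Finset.sum_congr rfl fun i _ => ?_
    rw [Nat.cast_mul, Int.toNat_of_nonneg (hS i i.2)]
    rfl
  rw [h2]
  exact_mod_cast h

/-- A transcendental function has finitely many zeros. -/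
theorem finite_zeros {x : F} (hx : Transcendental K x) : {v : Place K F | 0 < v.ord x}.Finite := by
  by_contra hinf
  have hx0 : x ≠ 0 := by
    rintro rfl
    exact hx isAlgebraic_zero
  obtain ⟨N, hN⟩ := IsFF1.exists_degBound x hx
  obtain ⟨S, hS, hcard⟩ := Set.Infinite.exists_subset_card_eq hinf (N + 1)
  have h := sum_ord_mul_deg_le hx0 S (fun v hv => (hS hv).le) hN
  have h2 : (S.card : ℤ) ≤ ∑ v ∈ S, v.ord x * (v.deg : ℤ) := by
    rw [Finset.card_eq_sum_ones, Nat.cast_sum]
    refine Finset.sum_le_sum fun v hv => ?_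
    have h3 : 0 < v.ord x := hS hv
    have h4 : (1 : ℤ) ≤ (v.deg : ℤ) := by exact_mod_cast deg_pos v
    push_cast
    nlinarith
  rw [hcard] at h2
  push_cast at h2
  omega

/-- A function has finitely many zeros and poles. -/
theorem finite_ord_ne_zero (x : F) : {v : Place K F | v.ord x ≠ 0}.Finite := by
  by_cases hx : IsAlgebraic K x
  · have : {v : Place K F | v.ord x ≠ 0} = ∅ := by
      ext v
      simp [ord_eq_zero_of_isAlgebraic v hx]
    rw [this]
    exact Set.finite_empty
  · have hx' : Transcendental K x⁻¹ := fun h => hx (by simpa using h.inv)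
    refine ((finite_zeros (K := K) (x := x) hx).union (finite_zeros hx')).subset ?_
    intro v hv
    simp only [Set.mem_union, Set.mem_ofPred_eq, Place.ord_inv] at hv ⊢
    omega

/-- The principal divisor of a function. -/
noncomputable def divOf (x : F) : Divisor K F :=
  Finsupp.ofSupportFinite (fun v : Place K F => v.ord x) (finite_ord_ne_zero x)

@[simp]
theorem divOf_apply (x : F) (v : Place K F) : divOf x v = v.ord x := rfl

theorem divOf_mul {x y : F} (hx : x ≠ 0) (hy : y ≠ 0) : divOf (K := K) (x * y) = divOf x + divOf y := by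
  ext v
  simp [Place.ord_mul v hx hy]

theorem divOf_inv (x : F) : divOf (K := K) x⁻¹ = -divOf x := by
  ext v
  simp [Place.ord_inv]

theorem divOf_one : divOf (K := K) (1 : F) = 0 := by
  ext v
  simp

/-- The divisor of zeros. -/
noncomputable def zeroDiv (x : F) : Divisor K F :=
  Finsupp.ofSupportFinite (fun v : Place K F => max (v.ord x) 0)
    ((finite_ord_ne_zero x).subset fun v hv => by
      simp only [Function.mem_support, ne_eq] at hv
      simp only [Set.mem_ofPred_eq]
      intro h0
      exact hv (by simp [h0]))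

/-- The divisor of poles. -/
noncomputable def poleDiv (x : F) : Divisor K F :=
  Finsupp.ofSupportFinite (fun v : Place K F => max (-v.ord x) 0)
    ((finite_ord_ne_zero x).subset fun v hv => by
      simp only [Function.mem_support, ne_eq] at hv
      simp only [Set.mem_ofPred_eq]
      intro h0
      exact hv (by simp [h0]))

@[simp]
theorem zeroDiv_apply (x : F) (v : Place K F) : zeroDiv x v = max (v.ord x) 0 := rfl

@[simp]
theorem poleDiv_apply (x : F) (v : Place K F) : poleDiv x v = max (-v.ord x) 0 := rfl

theorem divOf_eq_sub (x : F) : divOf (K := K) x = zeroDiv x - poleDiv x := by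
  ext v
  simp only [divOf_apply, Finsupp.coe_sub, Pi.sub_apply, zeroDiv_apply, poleDiv_apply]
  rcases le_total (v.ord x) 0 with h | h
  · rw [max_eq_right h, max_eq_left (by omega)]; ring
  · rw [max_eq_left h, max_eq_right (by omega)]; ring

theorem poleDiv_inv (x : F) : poleDiv (K := K) x⁻¹ = zeroDiv x := by
  ext v
  simp [Place.ord_inv]

theorem zeroDiv_inv (x : F) : zeroDiv (K := K) x⁻¹ = poleDiv x := by
  ext v
  simp [Place.ord_inv]

theorem zeroDiv_nonneg (x : F) : 0 ≤ zeroDiv (K := K) x := by
  intro v
  simp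

theorem poleDiv_nonneg (x : F) : 0 ≤ poleDiv (K := K) x := by
  intro v
  simp

omit [IsFF1 K F] in
theorem degree_eq_sum (D : Divisor K F) (S : Finset (Place K F)) (hS : D.support ⊆ S) :
    Divisor.degree D = ∑ v ∈ S, D v * (v.deg : ℤ) := by
  have h : Divisor.degree D = D.sum fun v n => n * (v.deg : ℤ) := by
    simp [Divisor.degree, Finsupp.liftAddHom_apply]
  rw [h]
  exact Finsupp.sum_of_support_subset D hS _ (fun v _ => by simp)

omit [IsFF1 K F] in
theorem degree_nonneg {D : Divisor K F} (hD : 0 ≤ D) : 0 ≤ Divisor.degree D := by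
  rw [degree_eq_sum D D.support subset_rfl]
  exact Finset.sum_nonneg fun v _ => mul_nonneg (hD v) (Nat.cast_nonneg _)

omit [IsFF1 K F] in
theorem degree_mono {D E : Divisor K F} (h : D ≤ E) : Divisor.degree D ≤ Divisor.degree E := by
  have h1 : 0 ≤ E - D := sub_nonneg.mpr h
  have h2 := degree_nonneg h1
  rw [map_sub] at h2
  omega

/-- `deg (x)_0 ≤ [F : K(x)]`. -/
theorem degree_zeroDiv_le {x : F} (hx : Transcendental K x) :
    Divisor.degree (zeroDiv (K := K) x) ≤ degX K x := by
  have hx0 : x ≠ 0 := by
    rintro rfl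
    exact hx isAlgebraic_zero
  rw [degree_eq_sum _ _ subset_rfl]
  have h := sum_ord_mul_deg_le hx0 (zeroDiv (K := K) x).support (fun v hv => ?_)
    (degBound_degX hx)
  · refine le_trans (le_of_eq ?_) h
    refine Finset.sum_congr rfl fun v hv => ?_
    rw [Finsupp.mem_support_iff, zeroDiv_apply] at hv
    rw [zeroDiv_apply, max_eq_left]
    by_contra hlt
    exact hv (max_eq_right (by omega))
  · rw [Finsupp.mem_support_iff, zeroDiv_apply] at hv
    by_contra hlt
    exact hv (max_eq_right (by omega))

/-- `deg (x)_∞ ≤ [F : K(x)]`. -/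
theorem degree_poleDiv_le {x : F} (hx : Transcendental K x) :
    Divisor.degree (poleDiv (K := K) x) ≤ degX K x := by
  have hx0 : x ≠ 0 := by
    rintro rfl
    exact hx isAlgebraic_zero
  have hx' : Transcendental K x⁻¹ := fun h => hx (by simpa using h.inv)
  have := degree_zeroDiv_le hx'
  rwa [zeroDiv_inv, degX_inv hx0] at this

end Fermat.Agent.S26.FF
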