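import Mathlib
import Fermat.Agent.S26.FF.Zeros

/-!
# S26 / CURVE (C4): Riemann-Roch spaces are finite-dimensional (helper9503)

* `finrank_le_of_indepMod_bound` : general dimension bound from independence modulo a subspace.
* `card_le_deg_of_indepMod` : `dim L(A + P)/L(A) ≤ deg P`.
* `instFiniteLSpace` : `Module.Finite K (riemannRochSpace D)` for every divisor `D`.
* `finrank_lspace_le` : `l(B) ≤ l(A) + deg B - deg A` for `A ≤ B`.
* `mem_lspace_zero_iff` : `L(0)` is the field of constants (elements algebraic over `K`).
-/

set_option autoImplicit false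

namespace Fermat.Agent.S26.FF

open AlgebraicCurve Polynomial

variable {K F : Type*} [Field K] [Field F] [Algebra K F]

theorem mem_lspace_iff {D : Divisor K F} {f : F} :
    f ∈ riemannRochSpace D ↔ ∀ v : Place K F, OrdGe v (-D v) f :=
  mem_riemannRochSpace_iff

theorem lspace_mono {A B : Divisor K F} (h : A ≤ B) :
    riemannRochSpace A ≤ riemannRochSpace B := by
  intro f hf
  rw [mem_lspace_iff] at *
  exact fun v => (hf v).mono (by have := h v; omega)

theorem single_nonneg_one (v : Place K F) : (0 : Divisor K F) ≤ Finsupp.single v 1 := by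
  classical
  intro w
  rw [Finsupp.single_apply]
  split_ifs <;> simp

theorem single_nonneg_nat (v : Place K F) (n : ℕ) :
    (0 : Divisor K F) ≤ Finsupp.single v (n : ℤ) := by
  classical
  intro w
  rw [Finsupp.single_apply]
  split_ifs <;> simp

/-- Induction principle for effective divisors. -/
theorem divisor_induction_nonneg {P : Divisor K F → Prop} (h0 : P 0)
    (hstep : ∀ (D : Divisor K F) (v : Place K F), 0 ≤ D → P D → P (D + Finsupp.single v 1))
    (D : Divisor K F) (hD : 0 ≤ D) : P D := by
  classical
  have hmul : ∀ (D : Divisor K F) (v : Place K F) (n : ℕ), 0 ≤ D → P D →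
      P (D + Finsupp.single v (n : ℤ)) := by
    intro D v n hD0 hPD
    induction n with
    | zero => simpa using hPD
    | succ n ih =>
      have h1 : 0 ≤ D + Finsupp.single v (n : ℤ) := add_nonneg hD0 (single_nonneg_nat v n)
      have h2 := hstep _ v h1 ih
      rw [add_assoc, ← Finsupp.single_add] at h2
      exact_mod_cast h2
  suffices H : ∀ S : Finset (Place K F), ∀ D : Divisor K F, 0 ≤ D → D.support ⊆ S → P D from
    H D.support D hD subset_rfl
  intro S
  induction S using Finset.induction_on with
  | empty =>
    intro D _ hS
    have h1 : D = 0 := by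
      rw [← Finsupp.support_eq_empty]
      exact Finset.subset_empty.mp hS
    rw [h1]
    exact h0
  | insert v S hv ih =>
    intro D hD0 hS
    have h1 : D = D.erase v + Finsupp.single v (D v) := (Finsupp.erase_add_single v D).symm
    have h2 : 0 ≤ D.erase v := by
      intro w
      rw [Finsupp.erase_apply]
      split_ifs
      · simp
      · exact hD0 w
    have h3 : (D.erase v).support ⊆ S := by
      rw [Finsupp.support_erase]
      intro w hw
      rw [Finset.mem_erase] at hw
      exact (Finset.mem_insert.mp (hS hw.2)).resolve_left hw.1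
    have h4 := hmul _ v (D v).toNat h2 (ih _ h2 h3)
    rw [Int.toNat_of_nonneg (hD0 v)] at h4
    rw [h1]
    exact h4

theorem IndepMod.comp_equiv {W : Submodule K F} {α β : Type*} [Fintype α] [Fintype β]
    {u : α → F} (hu : IndepMod W u) (e : β ≃ α) : IndepMod W (u ∘ e) := by
  intro c hc b
  have h1 : ∑ a, c (e.symm a) • u a = ∑ b, c b • (u ∘ e) b :=
    (Fintype.sum_equiv e _ _ (fun k => by simp)).symm
  have := hu (fun a => c (e.symm a)) (by rw [h1]; exact hc) (e b)
  simpa using this

/-- If every family of `V` independent modulo `W ≤ V` has at most `d` members, then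
`dim V ≤ dim W + d`. -/
theorem finrank_le_of_indepMod_bound {V W : Submodule K F} (hWV : W ≤ V) [Module.Finite K W]
    {d : ℕ} (h : ∀ (n : ℕ) (u : Fin n → F), (∀ a, u a ∈ V) → IndepMod W u → n ≤ d) :
    Module.Finite K V ∧ Module.finrank K V ≤ Module.finrank K W + d := by
  classical
  set W' : Submodule K V := W.submoduleOf V with hW'
  have hrank : Module.rank K (V ⧸ W') ≤ d := by
    refine rank_le fun S hS => ?_
    have hsurj := W'.mkQ_surjective
    choose r hr using fun i : S => hsurj (i : V ⧸ W')
    have hu : IndepMod W (fun i : S => ((r i : V) : F)) := by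
      intro c hc
      have h2 : (∑ i : S, c i • r i) ∈ W' := by
        show ((∑ i : S, c i • r i : V) : F) ∈ W
        rw [AddSubmonoidClass.coe_finsetSum]
        exact hc
      have h3 : W'.mkQ (∑ i : S, c i • r i) = 0 := by
        rw [Submodule.mkQ_apply, Submodule.Quotient.mk_eq_zero]
        exact h2
      rw [map_sum] at h3
      have h4 : ∑ i : S, c i • (i : V ⧸ W') = 0 := by
        rw [← h3]
        exact Finset.sum_congr rfl fun i _ => by rw [map_smul, hr i]
      exact Fintype.linearIndependent_iff.mp hS c h4
    have := h _ _ (fun a => ((r ((Fintype.equivFin S).symm a) : V)).2)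
      (hu.comp_equiv (Fintype.equivFin S).symm)
    simpa using this
  have hfinQ : Module.Finite K (V ⧸ W') :=
    Module.rank_lt_aleph0_iff.mp (hrank.trans_lt Cardinal.natCast_lt_aleph0)
  have e : W' ≃ₗ[K] W := Submodule.submoduleOfEquivOfLe hWV
  have hfinW' : Module.Finite K W' := Module.Finite.equiv e.symm
  have hfinV : Module.Finite K V := Module.Finite.of_submodule_quotient W'
  refine ⟨hfinV, ?_⟩
  have h1 := Submodule.finrank_quotient_add_finrank W'
  have h2 : Module.finrank K W' = Module.finrank K W := e.finrank_eq
  have h3 : Module.finrank K (V ⧸ W') ≤ d := Module.finrank_le_of_rank_le hrank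
  omega

/-- `dim L(A + P)/L(A) ≤ deg P`, elementary form. -/
theorem card_le_deg_of_indepMod (A : Divisor K F) (P : Place K F)
    [Module.Finite K P.ResidueField] {n : ℕ} (u : Fin n → F)
    (hu : ∀ a, u a ∈ riemannRochSpace (A + Finsupp.single P 1))
    (hind : IndepMod (riemannRochSpace A) u) : n ≤ P.deg := by
  classical
  obtain ⟨t, ht0, ht⟩ := exists_ord_eq P (A P + 1)
  have hs0 : ∀ a, OrdGe P 0 (t * u a) := by
    intro a
    have h1 := (mem_lspace_iff.mp (hu a)) P
    have h2 := (ordGe_self P t).mul h1
    rw [ht] at h2
    convert h2 using 1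
    simp
  have hres : ResIndep P (fun a => t * u a) := by
    intro c hc
    apply hind c
    rw [mem_lspace_iff]
    have hU : ∑ a, c a • u a ∈ riemannRochSpace (A + Finsupp.single P 1) :=
      Submodule.sum_mem _ fun a _ => Submodule.smul_mem _ _ (hu a)
    intro v
    by_cases hvP : v = P
    · subst hvP
      have e : ∑ a, c a • (t * u a) = t * ∑ a, c a • u a := by
        rw [Finset.mul_sum]
        exact Finset.sum_congr rfl fun a _ => by rw [mul_smul_comm]
      rw [e] at hc
      refine OrdGe.of_mul_left ht0 ?_
      rw [ht]
      convert hc using 1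
      ring
    · have h1 := (mem_lspace_iff.mp hU) v
      have h2 : (A + Finsupp.single P 1 : Divisor K F) v = A v := by
        rw [Finsupp.add_apply, Finsupp.single_apply, if_neg (Ne.symm hvP), add_zero]
      rwa [h2] at h1
  have hli := hres.linearIndependent P hs0
  have := hli.fintype_card_le_finrank
  simpa [Place.deg] using this

variable [IsFF1 K F]

theorem lspace_step (A : Divisor K F) (P : Place K F) [Module.Finite K (riemannRochSpace A)] :
    Module.Finite K (riemannRochSpace (A + Finsupp.single P 1)) ∧
    Module.finrank K (riemannRochSpace (A + Finsupp.single P 1))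
      ≤ Module.finrank K (riemannRochSpace A) + P.deg :=
  finrank_le_of_indepMod_bound (lspace_mono (le_add_of_nonneg_right (single_nonneg_one P)))
    (fun _ u hu hind => card_le_deg_of_indepMod A P u hu hind)

theorem lspace_finite_add (D : Divisor K F) (hD : 0 ≤ D) :
    ∀ A : Divisor K F, Module.Finite K (riemannRochSpace A) →
      Module.Finite K (riemannRochSpace (A + D)) ∧
      (Module.finrank K (riemannRochSpace (A + D)) : ℤ)
        ≤ Module.finrank K (riemannRochSpace A) + Divisor.degree D := by
  refine divisor_induction_nonneg (P := fun D => ∀ A : Divisor K F,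
    Module.Finite K (riemannRochSpace A) →
      Module.Finite K (riemannRochSpace (A + D)) ∧
      (Module.finrank K (riemannRochSpace (A + D)) : ℤ)
        ≤ Module.finrank K (riemannRochSpace A) + Divisor.degree D) ?_ ?_ D hD
  · intro A hA
    have e : A + 0 = A := add_zero A
    rw [e]
    exact ⟨hA, by simp⟩
  · intro D v _ hPD A hA
    obtain ⟨hfin, hle⟩ := hPD A hA
    obtain ⟨hfin2, hle2⟩ := lspace_step (A + D) v
    rw [← add_assoc]
    refine ⟨hfin2, ?_⟩
    rw [map_add, Divisor.degree_single, one_mul]
    have : (Module.finrank K (riemannRochSpace (A + D + Finsupp.single v 1)) : ℤ)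
        ≤ Module.finrank K (riemannRochSpace (A + D)) + v.deg := by exact_mod_cast hle2
    omega

/-- Functions without poles are algebraic over `K`, and conversely. -/
theorem mem_lspace_zero_iff {f : F} :
    f ∈ riemannRochSpace (0 : Divisor K F) ↔ IsAlgebraic K f := by
  rw [mem_lspace_iff]
  constructor
  · intro h
    rcases eq_or_ne f 0 with rfl | hf
    · exact isAlgebraic_zero
    · refine isAlgebraic_of_forall_ord_nonneg fun v => ?_
      have := (h v).le_ord hf
      simpa using this
  · intro h v
    refine Or.inr ?_
    simp [ord_eq_zero_of_isAlgebraic v h]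

theorem lspace_zero_finite (P : Place K F) :
    Module.Finite K (riemannRochSpace (0 : Divisor K F)) ∧
    Module.finrank K (riemannRochSpace (0 : Divisor K F)) ≤ P.deg := by
  have h := finrank_le_of_indepMod_bound (K := K) (F := F) (V := riemannRochSpace 0) (W := ⊥)
    bot_le (d := P.deg) ?_
  · simpa using h
  · intro n u hu hind
    have hs0 : ∀ a, OrdGe P 0 (u a) := by
      intro a
      have := (mem_lspace_iff.mp (hu a)) P
      simpa using this
    have hres : ResIndep P u := by
      intro c hc
      apply hind c
      rw [Submodule.mem_bot]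
      have hU : ∑ a, c a • u a ∈ riemannRochSpace (0 : Divisor K F) :=
        Submodule.sum_mem _ fun a _ => Submodule.smul_mem _ _ (hu a)
      by_contra hne
      have halg := mem_lspace_zero_iff.mp hU
      have h1 := hc.le_ord hne
      rw [ord_eq_zero_of_isAlgebraic P halg] at h1
      omega
    have hli := hres.linearIndependent P hs0
    have := hli.fintype_card_le_finrank
    simpa [Place.deg] using this

instance instFiniteLSpace (D : Divisor K F) : Module.Finite K (riemannRochSpace D) := by
  obtain ⟨P⟩ := instNonemptyPlace (K := K) (F := F)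
  have h0 := (lspace_zero_finite P).1
  have h1 := (lspace_finite_add (D ⊔ 0) le_sup_right 0 h0).1
  rw [zero_add] at h1
  exact Module.Finite.of_injective (Submodule.inclusion (lspace_mono (le_sup_left (b := 0))))
    (Submodule.inclusion_injective _)

/-- `l(B) ≤ l(A) + deg B - deg A` for `A ≤ B`. -/
theorem finrank_lspace_le {A B : Divisor K F} (h : A ≤ B) :
    (Module.finrank K (riemannRochSpace B) : ℤ)
      ≤ Module.finrank K (riemannRochSpace A) + (Divisor.degree B - Divisor.degree A) := by
  have h1 := (lspace_finite_add (B - A) (sub_nonneg.mpr h) A inferInstance).2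
  rw [add_sub_cancel, map_sub] at h1
  exact h1

theorem finrank_lspace_mono {A B : Divisor K F} (h : A ≤ B) :
    Module.finrank K (riemannRochSpace A) ≤ Module.finrank K (riemannRochSpace B) :=
  Submodule.finrank_mono (lspace_mono h)

omit [IsFF1 K F] in
theorem one_mem_lspace {A : Divisor K F} (hA : 0 ≤ A) : (1 : F) ∈ riemannRochSpace A := by
  rw [mem_lspace_iff]
  intro v
  refine Or.inr ?_
  have := hA v
  simp only [Finsupp.coe_zero, Pi.zero_apply] at this
  simp only [Place.ord_one]
  omega

/-- `l(0) ≤ deg P` for every place `P`. -/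
theorem finrank_lspace_zero_le (P : Place K F) :
    Module.finrank K (riemannRochSpace (0 : Divisor K F)) ≤ P.deg :=
  (lspace_zero_finite P).2

theorem finrank_lspace_zero_pos :
    0 < Module.finrank K (riemannRochSpace (0 : Divisor K F)) := by
  rw [Module.finrank_pos_iff_exists_ne_zero]
  exact ⟨⟨1, one_mem_lspace le_rfl⟩, fun h => one_ne_zero (congrArg Subtype.val h)⟩

end Fermat.Agent.S26.FF
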